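/-
S17 / weak Mordell-Weil, abstract part (helper65).

`Γ` acts on an abelian group `J` (think: `Γ = Gal(Q̄/Q)`, `J = J₀(N)(Q̄)`).  If
* `J` is `m`-divisible,
* `J[m]` is finite,
* `Γ'` is a subgroup of finite index of `Γ`,
* the Kummer maps `τ ↦ τ • y - y` (`τ ∈ Γ'`, `m • y` fixed by `Γ`) all lie in ONE finite set `𝓗`
  (in the application: continuous homomorphisms `Γ' → J[m]` unramified outside a finite set),
then `m • J^Γ` has finite index in `J^Γ`.  No cohomology is used: a cocycle is determined by its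
restriction to `Γ'` and its values on a system of coset representatives.
-/
import Mathlib

set_option autoImplicit false
set_option linter.style.haveILetI false

namespace Fermat.Agent.S17

section Abstract

variable {Γ : Type*} [Group Γ] {J : Type*} [AddCommGroup J] [DistribMulAction Γ J]

/-- The Kummer function of `y`: `σ ↦ σ • y - y`. -/
def kummerFun (y : J) (σ : Γ) : J := σ • y - y

lemma kummerFun_mul (y : J) (σ τ : Γ) :
    kummerFun y (σ * τ) = σ • kummerFun y τ + kummerFun y σ := by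
  simp only [kummerFun, mul_smul, smul_sub]
  abel

lemma nsmul_kummerFun (m : ℕ) (y : J) (σ : Γ) (hx : σ • (m • y) = m • y) :
    m • kummerFun y σ = 0 := by
  have h : σ • (m • y) = m • (σ • y) := smul_comm σ m y
  rw [kummerFun, smul_sub, ← h, hx, sub_self]

lemma kummerFun_sub (y y' : J) (σ : Γ) :
    kummerFun (y - y') σ = kummerFun y σ - kummerFun y' σ := by
  simp only [kummerFun, smul_sub]
  abel

lemma smul_eq_of_kummerFun_eq {y y' : J} {σ : Γ} (h : kummerFun y σ = kummerFun y' σ) :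
    σ • (y - y') = y - y' := by
  have h1 : kummerFun (y - y') σ = 0 := by rw [kummerFun_sub, h, sub_self]
  exact sub_eq_zero.mp h1

/-- Two Kummer functions that agree on a subgroup `Γ'` and on a set of representatives of
`Γ ⧸ Γ'` agree everywhere. -/
lemma kummerFun_eq_of_eq_on (Γ' : Subgroup Γ) (s : Γ ⧸ Γ' → Γ)
    (hs : ∀ q, (QuotientGroup.mk (s q) : Γ ⧸ Γ') = q) {y y' : J}
    (h1 : ∀ τ : Γ', kummerFun y (τ : Γ) = kummerFun y' (τ : Γ))
    (h2 : ∀ q, kummerFun y (s q) = kummerFun y' (s q)) (σ : Γ) :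
    kummerFun y σ = kummerFun y' σ := by
  set q : Γ ⧸ Γ' := QuotientGroup.mk σ with hq
  have hmem : (s q)⁻¹ * σ ∈ Γ' := by
    rw [← QuotientGroup.eq]
    exact hs q
  have key : ∀ z : J, kummerFun z σ
      = s q • kummerFun z ((s q)⁻¹ * σ) + kummerFun z (s q) := by
    intro z
    rw [← kummerFun_mul]
    congr 1
    group
  rw [key y, key y', h1 ⟨_, hmem⟩, h2 q]

/-- **Abstract weak Mordell-Weil.** -/
theorem finiteIndex_nsmul_fixedPoints (m : ℕ)
    (hdiv : ∀ x : J, ∃ y : J, m • y = x)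
    (htors : {t : J | m • t = 0}.Finite)
    (Γ' : Subgroup Γ) [Γ'.FiniteIndex]
    (𝓗 : Set (Γ' → J)) (h𝓗 : 𝓗.Finite)
    (hkum : ∀ y : J, (∀ σ : Γ, σ • (m • y) = m • y) →
      (fun τ : Γ' => kummerFun y (τ : Γ)) ∈ 𝓗) :
    (nsmulAddMonoidHom (α := FixedPoints.addSubgroup Γ J) m).range.FiniteIndex := by
  classical
  -- notation
  set G : AddSubgroup J := FixedPoints.addSubgroup Γ J with hG
  have hGmem : ∀ x : G, ∀ σ : Γ, σ • (x : J) = x := fun x σ => x.2 σ
  -- a choice of `m`-th parts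
  choose div hdiv' using hdiv
  have hfixdiv : ∀ x : G, ∀ σ : Γ, σ • (m • div (x : J)) = m • div (x : J) := by
    intro x σ
    rw [hdiv']
    exact hGmem x σ
  -- a section of `Γ → Γ ⧸ Γ'`
  let s : Γ ⧸ Γ' → Γ := fun q => Quotient.out q
  have hs : ∀ q, (QuotientGroup.mk (s q) : Γ ⧸ Γ') = q := fun q => Quotient.out_eq q
  haveI : Finite (Γ ⧸ Γ') := Subgroup.finite_quotient_of_finiteIndex
  haveI : Finite 𝓗 := h𝓗.to_subtype
  haveI : Finite {t : J | m • t = 0} := htors.to_subtype
  -- the invariant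
  let Ψ : G → 𝓗 × ((Γ ⧸ Γ') → {t : J | m • t = 0}) := fun x =>
    (⟨fun τ : Γ' => kummerFun (div (x : J)) (τ : Γ), hkum _ (hfixdiv x)⟩,
      fun q => ⟨kummerFun (div (x : J)) (s q), nsmul_kummerFun m _ _ (hfixdiv x (s q))⟩)
  have hΨ : ∀ x x' : G, Ψ x = Ψ x' →
      x - x' ∈ (nsmulAddMonoidHom (α := G) m).range := by
    intro x x' h
    have h1 : ∀ τ : Γ', kummerFun (div (x : J)) (τ : Γ) = kummerFun (div (x' : J)) (τ : Γ) := by
      intro τ
      have := congrArg (fun p => (p.1 : Γ' → J) τ) h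
      exact this
    have h2 : ∀ q, kummerFun (div (x : J)) (s q) = kummerFun (div (x' : J)) (s q) := by
      intro q
      have := congrArg (fun p => ((p.2 q : {t : J | m • t = 0}) : J)) h
      exact this
    have h3 : ∀ σ : Γ, σ • (div (x : J) - div (x' : J)) = div (x : J) - div (x' : J) :=
      fun σ => smul_eq_of_kummerFun_eq (kummerFun_eq_of_eq_on Γ' s hs h1 h2 σ)
    refine ⟨⟨div (x : J) - div (x' : J), h3⟩, ?_⟩
    apply Subtype.ext
    show ((m • (⟨div (x : J) - div (x' : J), h3⟩ : G) : G) : J) = ((x - x' : G) : J)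
    rw [AddSubgroup.coe_nsmul, AddSubgroup.coe_sub]
    show m • (div (x : J) - div (x' : J)) = (x : J) - (x' : J)
    rw [smul_sub, hdiv', hdiv']
  -- finiteness of the quotient
  haveI : Finite (Set.range Ψ) := inferInstance
  have hfin : Finite (G ⧸ (nsmulAddMonoidHom (α := G) m).range) := by
    let f : Set.range Ψ → G ⧸ (nsmulAddMonoidHom (α := G) m).range :=
      fun v => QuotientAddGroup.mk (v.2.choose)
    apply Finite.of_surjective f
    intro z
    obtain ⟨x, rfl⟩ := QuotientAddGroup.mk_surjective z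
    refine ⟨⟨Ψ x, x, rfl⟩, ?_⟩
    show (QuotientAddGroup.mk _ : G ⧸ (nsmulAddMonoidHom (α := G) m).range) = QuotientAddGroup.mk x
    have hch : Ψ ((⟨Ψ x, x, rfl⟩ : Set.range Ψ).2.choose) = Ψ x :=
      (⟨Ψ x, x, rfl⟩ : Set.range Ψ).2.choose_spec
    rw [QuotientAddGroup.eq]
    have := hΨ x _ hch.symm
    have hneg : -((⟨Ψ x, x, rfl⟩ : Set.range Ψ).2.choose) + x
        = x - ((⟨Ψ x, x, rfl⟩ : Set.range Ψ).2.choose) := by abel
    rw [hneg]
    exact this
  exact AddSubgroup.finiteIndex_of_finite_quotient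

end Abstract

end Fermat.Agent.S17
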